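/-
Row S32 (flat at `p`), piece REL (helper692) — unconditional form.

`rel : Fermat.Agent.S32.RelStatement` (exact Prop of `Fermat/Agent/S32/Spec.lean`), from
`RelCore.rel_of_chebWeak` and Tier 1 of the shared CHEB library (`Lib.Cheb.frobeniusDivision`).
-/
import Fermat.Agent.S32.H692.RelCore
import Fermat.Agent.S30.H990.Cheb
import Fermat.Agent.Lib.Cheb.FrobeniusDivision

set_option autoImplicit false

namespace Fermat.Agent.S32.H692

/-- **REL.**  At a local point `P` of the coefficient ring of a datum, every element of `G_ℚ`
satisfies on the eigenmodule of `P.χ ∘ π` the characteristic polynomial of `H.ρ`. -/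
theorem rel : Fermat.Agent.S32.RelStatement :=
  rel_of_chebWeak
    (Fermat.Agent.S30.H990.chebWeak_of_frobeniusDivision Fermat.Agent.Lib.Cheb.frobeniusDivision)

end Fermat.Agent.S32.H692
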